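/-
S12 / Loc / Branch (task S12/Loc-Branch): BRANCH DICHOTOMY at a node (abstract; any residue characteristic, `char K ≠ 2`).

Two points `P₁, P₂` reducing to the node at the same "depth" `v ξ₁ = v ξ₂` (`ξ = x - e`, `v κ < v ξ < 1`) satisfy `P₂ - P₁ ∈ E0` or `P₂ + P₁ ∈ E0`.

MATH (copy of the proof of `S13.Loc.Inert.same_branch`, file `Fermat/Agent/S13/LocBranch.lean`: read it first).  For `i = 1, 2`: `Yᵢ = yc Pᵢ`, `τᵢ = Yᵢ/ξᵢ`, `tᵢ = (τᵢ - a₁)/2`, `sᵢ = ξᵢ + κ/ξᵢ`, `v sᵢ < 1`.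
`Yᵢ² = ξᵢ (4 ξᵢ² + β ξᵢ + 4 κ)` (`yc_sq`, `Centre.D2_id`), so `τᵢ² = β + 4 sᵢ`, `v τᵢ = 1`; `β = a₁² + 4 a₂ + 12 e` gives `tᵢ² + a₁ tᵢ = a₂ + 3 e + sᵢ`, so `v tᵢ ≤ 1`.
Subtract: `(t₂ - t₁)(t₂ + t₁ + a₁) = s₂ - s₁`, of valuation `< 1`; both factors have valuation `≤ 1`, so one of them has valuation `< 1`.
 * `v (t₂ - t₁) < 1`: `τ₂ + τ₁ = 2 (τ₁ + (t₂ - t₁))` has valuation `v 2`; `Y₂ ξ₁ + Y₁ ξ₂ = (τ₂ + τ₁) ξ₁ ξ₂`; `S13.Loc.same_branch` gives `P₂ - P₁ ∈ E0`.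
 * `v (t₂ + t₁ + a₁) < 1`: `τ₂ - τ₁ = 2 (t₂ + t₁ + a₁ - τ₁)`... i.e. `τ₂ + (-τ₁) = 2 (-τ₁ + (t₂ + t₁ + a₁))` has valuation `v 2`; apply `S13.Loc.same_branch` to `-P₁, P₂` (`xc_neg`, `yc_neg`): `P₂ - (-P₁) = P₂ + P₁ ∈ E0`.
It is convenient to prove first the auxiliary `branch_aux` (everything about ONE point).
-/
import Fermat.Agent.S13.LocBranch

set_option autoImplicit false

namespace Fermat.Agent.S12.Loc

open WeierstrassCurve WeierstrassCurve.Affine Fermat.Agent.S05 Fermat.Agent.S13.Loc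

variable {K : Type*} [Field K] [DecidableEq K] {W : Affine K} {e κ β : K}
variable {Γ₀ : Type*} [LinearOrderedCommGroupWithZero Γ₀] (v : Valuation K Γ₀)

/-- one point: `τ = yc/ξ`, `t = (τ - a₁)/2`. -/
theorem branch_aux (hc : Centre W e κ β) (h2 : (2 : K) ≠ 0) (ha₁ : v W.a₁ ≤ 1) (ha₂ : v W.a₂ ≤ 1)
    (he : v e ≤ 1) (hβ : v β = 1) {P : W.Point} (hP : P ≠ 0) (h1 : v κ < v (xc P - e))
    (h3 : v (xc P - e) < 1) :
    v (yc P / (xc P - e)) = 1 ∧ v ((yc P / (xc P - e) - W.a₁) / 2) ≤ 1 ∧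
      v ((xc P - e) + κ / (xc P - e)) < 1 ∧
      ((yc P / (xc P - e) - W.a₁) / 2) ^ 2 + W.a₁ * ((yc P / (xc P - e) - W.a₁) / 2) =
        W.a₂ + 3 * e + ((xc P - e) + κ / (xc P - e)) := by
  set ξ := xc P - e with hξdef
  set Y := yc P with hYdef
  have hvξ : 0 < v ξ := lt_of_le_of_lt zero_le h1
  have hξ0 : ξ ≠ 0 := (v.ne_zero_iff).mp hvξ.ne'
  have h4 : v (4 : K) ≤ 1 := by simpa using v_natCast_le_one v 4
  have h3' : v (3 : K) ≤ 1 := by simpa using v_natCast_le_one v 3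
  have hY2 : Y ^ 2 = ξ * (4 * ξ ^ 2 + β * ξ + 4 * κ) := by
    rw [hYdef, yc_sq P hP, hc.D2_id]
  have hκξ : v (κ / ξ) < 1 := by
    rw [map_div₀]; exact (div_lt_one₀ hvξ).mpr h1
  have hsm : v (ξ + κ / ξ) < 1 := v.map_add_lt h3 hκξ
  set τ := Y / ξ with hτdef
  set t := (τ - W.a₁) / 2 with htdef
  have hτ2 : τ ^ 2 = β + 4 * (ξ + κ / ξ) := by
    rw [hτdef, div_pow, hY2]; field_simp; ring
  have hvτ : v τ = 1 := by
    have : v (τ ^ 2) = 1 := by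
      rw [hτ2, ← hβ]
      apply v.map_add_eq_of_lt_left
      rw [hβ, map_mul]
      exact lt_of_le_of_lt (mul_le_of_le_one_left' h4) hsm
    rw [map_pow] at this
    exact (pow_eq_one_iff_of_nonneg zero_le (by norm_num)).mp this
  have ht2 : t ^ 2 + W.a₁ * t = W.a₂ + 3 * e + (ξ + κ / ξ) := by
    have hb : β = W.a₁ ^ 2 + 4 * W.a₂ + 12 * e := by rw [hc.c1, WeierstrassCurve.b₂]
    have e1 : 4 * (t ^ 2 + W.a₁ * t) = τ ^ 2 - W.a₁ ^ 2 := by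
      rw [htdef]; field_simp; ring
    have h4' : (4 : K) ≠ 0 := by
      have : (4 : K) = 2 * 2 := by norm_num
      rw [this]; exact mul_ne_zero h2 h2
    apply mul_left_cancel₀ h4'
    rw [e1, hτ2, hb]; ring
  have hvt : v t ≤ 1 := by
    by_contra hlt
    rw [not_le] at hlt
    have hR : v (W.a₂ + 3 * e + (ξ + κ / ξ)) ≤ 1 := by
      refine v.map_add_le (v.map_add_le ha₂ ?_) hsm.le
      rw [map_mul]; exact mul_le_one' h3' he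
    have hlt2 : v (W.a₁ * t) < v (t ^ 2) := by
      rw [map_mul, map_pow, sq]
      exact mul_lt_mul_of_pos_right (lt_of_le_of_lt ha₁ hlt) (lt_trans zero_lt_one hlt)
    have : v (t ^ 2 + W.a₁ * t) = v (t ^ 2) := v.map_add_eq_of_lt_left hlt2
    rw [ht2, map_pow] at this
    rw [this] at hR
    exact absurd (one_lt_pow₀ hlt (by norm_num)) (not_lt.mpr hR)
  exact ⟨hvτ, hvt, hsm, ht2⟩

/-- **Branch dichotomy.** -/
theorem branch_dichotomy (hc : Centre W e κ β) (h2 : (2 : K) ≠ 0) (ha₁ : v W.a₁ ≤ 1)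
    (ha₂ : v W.a₂ ≤ 1) (he : v e ≤ 1) (hβ : v β = 1) {P₁ P₂ : W.Point} (h₁ : P₁ ≠ 0) (h₂ : P₂ ≠ 0)
    (hκ : v κ < v (xc P₁ - e)) (hlt : v (xc P₁ - e) < 1) (hξ : v (xc P₂ - e) = v (xc P₁ - e)) :
    InE0 v e (P₂ - P₁) ∨ InE0 v e (P₂ + P₁) := by
  have hκ2 : v κ < v (xc P₂ - e) := by rw [hξ]; exact hκ
  have hlt2 : v (xc P₂ - e) < 1 := by rw [hξ]; exact hlt
  obtain ⟨hτ1, ht1, hs1, hq1⟩ := branch_aux v hc h2 ha₁ ha₂ he hβ h₁ hκ hlt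
  obtain ⟨hτ2, ht2, hs2, hq2⟩ := branch_aux v hc h2 ha₁ ha₂ he hβ h₂ hκ2 hlt2
  have hvξ1 : 0 < v (xc P₁ - e) := lt_of_le_of_lt zero_le hκ
  have hξ10 : xc P₁ - e ≠ 0 := (v.ne_zero_iff).mp hvξ1.ne'
  have hvξ2 : 0 < v (xc P₂ - e) := lt_of_le_of_lt zero_le hκ2
  have hξ20 : xc P₂ - e ≠ 0 := (v.ne_zero_iff).mp hvξ2.ne'
  set ξ₁ := xc P₁ - e with hξ1def
  set ξ₂ := xc P₂ - e with hξ2def
  set τ₁ := yc P₁ / ξ₁ with hτ1def
  set τ₂ := yc P₂ / ξ₂ with hτ2def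
  set t₁ := (τ₁ - W.a₁) / 2 with ht1def
  set t₂ := (τ₂ - W.a₁) / 2 with ht2def
  have hprod : (t₂ - t₁) * (t₂ + t₁ + W.a₁) = (ξ₂ + κ / ξ₂) - (ξ₁ + κ / ξ₁) := by
    linear_combination hq2 - hq1
  have hvprod : v ((t₂ - t₁) * (t₂ + t₁ + W.a₁)) < 1 := by
    rw [hprod]; exact v.map_sub_lt hs2 hs1
  have hA : v (t₂ - t₁) ≤ 1 := v.map_sub_le ht2 ht1
  have hB : v (t₂ + t₁ + W.a₁) ≤ 1 := v.map_add_le (v.map_add_le ht2 ht1) ha₁
  have hcases : v (t₂ - t₁) < 1 ∨ v (t₂ + t₁ + W.a₁) < 1 := by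
    by_contra hcon
    rw [not_or, not_lt, not_lt] at hcon
    rw [map_mul, le_antisymm hA hcon.1, le_antisymm hB hcon.2, one_mul] at hvprod
    exact lt_irrefl _ hvprod
  rcases hcases with hc1 | hc2
  · left
    refine Fermat.Agent.S13.Loc.same_branch v hc h2 h₁ h₂ hξ10 hξ ?_
    have hsum : τ₂ + τ₁ = 2 * (τ₁ + (t₂ - t₁)) := by
      rw [ht1def, ht2def]; field_simp; ring
    have hvsum : v (τ₂ + τ₁) = v 2 := by
      rw [hsum, map_mul]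
      have : v (τ₁ + (t₂ - t₁)) = 1 := by
        rw [← hτ1]; apply v.map_add_eq_of_lt_left; rw [hτ1]; exact hc1
      rw [this, mul_one]
    have e5 : yc P₂ * ξ₁ + yc P₁ * ξ₂ = (τ₂ + τ₁) * (ξ₁ * ξ₂) := by
      rw [hτ1def, hτ2def]; field_simp
    rw [e5, map_mul, hvsum, map_mul]
  · right
    have hneg : InE0 v e (P₂ - (-P₁)) := by
      refine Fermat.Agent.S13.Loc.same_branch v hc h2 (neg_ne_zero.mpr h₁) h₂ (by rw [xc_neg]; exact hξ10)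
        (by rw [xc_neg]; exact hξ) ?_
      rw [xc_neg, yc_neg]
      have hsum : τ₂ - τ₁ = 2 * (-τ₁ + (t₂ + t₁ + W.a₁)) := by
        rw [ht1def, ht2def]; field_simp; ring
      have hvsum : v (τ₂ - τ₁) = v 2 := by
        rw [hsum, map_mul]
        have : v (-τ₁ + (t₂ + t₁ + W.a₁)) = 1 := by
          have h1 : v (-τ₁) = 1 := by rw [Valuation.map_neg]; exact hτ1
          rw [← h1]; apply v.map_add_eq_of_lt_left; rw [h1]; exact hc2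
        rw [this, mul_one]
      have e5 : yc P₂ * ξ₁ + -yc P₁ * ξ₂ = (τ₂ - τ₁) * (ξ₁ * ξ₂) := by
        rw [hτ1def, hτ2def]; field_simp; ring
      rw [e5, map_mul, hvsum, map_mul]
    rwa [sub_neg_eq_add] at hneg

end Fermat.Agent.S12.Loc
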