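/-
S12 / Loc (FREY-LOCAL): shared definitions.

`Wf P = P.freyCurveInt` is the integral (minimal) model of the Frey curve, `Pts (Wf P)` its `ℚ̄`-points
(`= (S15.A.Loc.EQ (Wf P)).Point`).  `IsCof P Q`: `Q` generates a Galois-stable cofixed line of `E[p]`.
-/
import Mathlib
import Fermat.Agent.S58.Defs
import Fermat.Prelude.Def_FLTPrelim_FreyPackage
import Fermat.Prelude.Def_FLTPrelim_CofixedLine
import Fermat.Prelude.Def_EllipticCurve_ZeroComponentAt

set_option autoImplicit false

namespace Fermat.Agent.S12.Loc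

open WeierstrassCurve WeierstrassCurve.Affine
open Fermat.Agent.S31 (Qb GQ)
open Fermat.Agent.S58 (EQ Pts)

/-- the integral model of the Frey curve. -/
abbrev Wf (P : FreyPackage) : WeierstrassCurve ℤ := P.freyCurveInt

/-- `Q` generates a Galois-stable line `N = ⟨Q⟩ ⊆ E[p]` with trivial Galois action on `E[p]/N`. -/
structure IsCof (P : FreyPackage) (Q : Pts (Wf P)) : Prop where
  order : addOrderOf Q = P.p
  stable : ∀ σ : GQ, ∃ k : ℕ, σ • Q = k • Q
  cofixed : ∀ (σ : GQ) (R : Pts (Wf P)), P.p • R = 0 → ∃ k : ℕ, σ • R - R = k • Q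

end Fermat.Agent.S12.Loc
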