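/-
S12 / Loc / Model (task S12/Loc-Model): the integral model `Wf P = P.freyCurveInt` of the Frey curve.

`A = a^p`, `B = b^p`, `C = c^p = A + B`.  `a₁ = 1`, `a₂ = (B - 1 - A)/4`, `a₃ = 0`, `a₄ = -AB/16`, `a₆ = 0` (integer divisions, EXACT:
`S13.frey_4_dvd : 4 ∣ B - 1 - A`, `S13.frey_32_dvd : 32 ∣ B`).  So write `B - 1 - A = 4 u`, `B = 32 m`: `a₂ = u`, `a₄ = -A * B / 16 = -(2 A m)` (`Int.ediv` of an exact multiple: `Int.mul_ediv_cancel_left`, or `Int.ediv_eq_of_eq_mul_right`).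
`b₂ = B - A`, `b₄ = -AB/8 = -4Am`, `b₆ = 0`, `b₈ = -a₄²`, `c₄ = A² + AB + B²`, `256 Δ = (ABC)²`.
-/
import Fermat.Agent.S12.Loc.Defs
import Fermat.Agent.S13.Torsion

set_option autoImplicit false

namespace Fermat.Agent.S12.Loc

open WeierstrassCurve WeierstrassCurve.Affine
open Fermat.Agent.S31 (Qb GQ)
open Fermat.Agent.S58 (EQ Pts)

variable (P : FreyPackage)

/-- exact values of the two non trivial coefficients. -/
theorem Wf_coeffs : ∃ u m : ℤ, P.b ^ P.p - 1 - P.a ^ P.p = 4 * u ∧ P.b ^ P.p = 32 * m ∧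
    (Wf P).a₁ = 1 ∧ (Wf P).a₂ = u ∧ (Wf P).a₃ = 0 ∧ (Wf P).a₄ = -(2 * P.a ^ P.p * m) ∧ (Wf P).a₆ = 0 := by
  obtain ⟨u, hu⟩ := Fermat.Agent.S13.frey_4_dvd P
  obtain ⟨m, hm⟩ := Fermat.Agent.S13.frey_32_dvd P
  refine ⟨u, m, hu, hm, rfl, ?_, rfl, ?_, rfl⟩
  · show (P.b ^ P.p - 1 - P.a ^ P.p) / 4 = u
    rw [hu]
    exact Int.mul_ediv_cancel_left u (by norm_num)
  · show -(P.a ^ P.p) * (P.b ^ P.p) / 16 = -(2 * P.a ^ P.p * m)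
    rw [hm, show -(P.a ^ P.p) * (32 * m) = 16 * (-(2 * P.a ^ P.p * m)) by ring]
    exact Int.mul_ediv_cancel_left _ (by norm_num)

/-- **Bridge**: the Frey curve over `ℚ` is the base change of the integral model.  (`WeierstrassCurve.ext`; `Wf_coeffs`; `push_cast`, `field_simp`.) -/
theorem freyCurve_eq : P.freyCurve = (Wf P).map (Int.castRingHom ℚ) := by
  obtain ⟨u, m, hu, hm, h1, h2, h3, h4, h6⟩ := Wf_coeffs P
  have huQ : ((P.b : ℚ) ^ P.p - 1 - (P.a : ℚ) ^ P.p) = 4 * (u : ℚ) := by exact_mod_cast hu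
  have hmQ : ((P.b : ℚ) ^ P.p) = 32 * (m : ℚ) := by exact_mod_cast hm
  ext
  · rw [WeierstrassCurve.map_a₁, h1]
    simp [FreyPackage.freyCurve]
  · rw [WeierstrassCurve.map_a₂, h2]
    simp only [FreyPackage.freyCurve, eq_intCast]
    rw [huQ]
    ring
  · rw [WeierstrassCurve.map_a₃, h3]
    simp [FreyPackage.freyCurve]
  · rw [WeierstrassCurve.map_a₄, h4]
    simp only [FreyPackage.freyCurve, eq_intCast]
    rw [hmQ]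
    push_cast
    ring
  · rw [WeierstrassCurve.map_a₆, h6]
    simp [FreyPackage.freyCurve]

theorem Wf_c₄ : (Wf P).c₄ = P.a ^ (2 * P.p) + P.a ^ P.p * P.b ^ P.p + P.b ^ (2 * P.p) := by
  obtain ⟨u, m, hu, hm, h1, h2, h3, h4, h6⟩ := Wf_coeffs P
  have hA : P.a ^ P.p = 32 * m - 1 - 4 * u := by linarith
  simp only [WeierstrassCurve.c₄, WeierstrassCurve.b₂, WeierstrassCurve.b₄, h1, h2, h3, h4]
  rw [mul_comm 2 P.p, pow_mul, pow_mul, hm, hA]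
  ring

/-- (helper) `Δ = 4 (A m C)²`. -/
theorem Model_Δ_eq : ∃ m : ℤ, P.b ^ P.p = 32 * m ∧
    (Wf P).Δ = 4 * (P.a ^ P.p * m * P.c ^ P.p) ^ 2 := by
  obtain ⟨u, m, hu, hm, h1, h2, h3, h4, h6⟩ := Wf_coeffs P
  have hA : P.a ^ P.p = 32 * m - 1 - 4 * u := by linarith
  refine ⟨m, hm, ?_⟩
  simp only [WeierstrassCurve.Δ, WeierstrassCurve.b₂, WeierstrassCurve.b₄, WeierstrassCurve.b₆,
    WeierstrassCurve.b₈, h1, h2, h3, h4, h6]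
  rw [← P.hFLT, hm, hA]
  ring

theorem Wf_Δ : 256 * (Wf P).Δ = (P.a * P.b * P.c) ^ (2 * P.p) := by
  obtain ⟨m, hm, hΔ⟩ := Model_Δ_eq P
  have e : (P.a * P.b * P.c) ^ (2 * P.p) = (P.a ^ P.p * P.b ^ P.p * P.c ^ P.p) ^ 2 := by
    rw [mul_comm 2 P.p, pow_mul, mul_pow (P.a * P.b) P.c P.p, mul_pow P.a P.b P.p]
  rw [hΔ, e, hm]
  ring

theorem Wf_Δ_ne_zero : (Wf P).Δ ≠ 0 := by
  intro h
  have h1 := Wf_Δ P
  rw [h, mul_zero] at h1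
  exact P.habc0 (pow_eq_zero_iff (by have := P.hp0; omega) |>.1 h1.symm)

variable {P}

/-- bad primes.  `ℓ` odd: from `Wf_Δ`.  `ℓ = 2`: both sides hold: `2 ∣ b`, and `Δ = A² (2m)² C² · 4`-type formula (`Δ = 4 A² m² C²` from `B = 32 m`: `256 Δ = A² (32 m)² C²`). -/
theorem dvd_Δ_iff {ℓ : ℕ} (hℓ : ℓ.Prime) : (ℓ : ℤ) ∣ (Wf P).Δ ↔ (ℓ : ℤ) ∣ P.a * P.b * P.c := by
  have hq : Prime (ℓ : ℤ) := Nat.prime_iff_prime_int.mp hℓ
  constructor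
  · intro h
    have h1 : (ℓ : ℤ) ∣ (P.a * P.b * P.c) ^ (2 * P.p) := by
      rw [← Wf_Δ P]
      exact Dvd.dvd.mul_left h _
    exact hq.dvd_of_dvd_pow h1
  · intro h
    have h1 : (ℓ : ℤ) ∣ 2 ^ 8 * (Wf P).Δ := by
      have e : (2 : ℤ) ^ 8 * (Wf P).Δ = 256 * (Wf P).Δ := by norm_num
      rw [e, Wf_Δ P]
      exact dvd_pow h (by have := P.hp0; omega)
    rcases hq.dvd_or_dvd h1 with h2 | h2
    · have h3 : (ℓ : ℤ) ∣ 2 := hq.dvd_of_dvd_pow h2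
      obtain ⟨m, -, hΔ⟩ := Model_Δ_eq P
      rw [hΔ]
      exact Dvd.dvd.mul_right (h3.trans (by norm_num)) _
    · exact h2

/-- (helper) a prime does not divide two coprime integers. -/
theorem Model_not_dvd_of_gcd {x y : ℤ} (h : gcd x y = 1) {q : ℕ} (hq : q.Prime)
    (hx : (q : ℤ) ∣ x) (hy : (q : ℤ) ∣ y) : False := by
  have h1 : (q : ℤ) ∣ gcd x y := dvd_gcd hx hy
  rw [h] at h1
  have h2 := Int.natAbs_dvd_natAbs.mpr h1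
  simp at h2
  exact hq.one_lt.ne' h2

/-- multiplicative reduction at the bad primes.  `ℓ ∣ a`: `c₄ ≡ B²`, `ℓ ∤ b` (`P.hgcdab`); `ℓ ∣ b`: `c₄ ≡ A²`; `ℓ ∣ c`: `c₄ = C² - AB ≡ -AB` (`P.hFLT`), `ℓ ∤ a, b` (`P.hgcdac`, `P.hgcdbc`).
(`S05.not_dvd_two_of_gcd`-type lemmas exist in `Fermat/Agent/S05/Frey.lean`.) -/
theorem not_dvd_c₄ {ℓ : ℕ} (hℓ : ℓ.Prime) (h : (ℓ : ℤ) ∣ P.a * P.b * P.c) : ¬ (ℓ : ℤ) ∣ (Wf P).c₄ := by
  have hq : Prime (ℓ : ℤ) := Nat.prime_iff_prime_int.mp hℓ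
  have h2p : 2 * P.p ≠ 0 := by have := P.hp0; omega
  intro hc
  rw [Wf_c₄] at hc
  rcases hq.dvd_or_dvd h with h1 | h1
  · rcases hq.dvd_or_dvd h1 with ha | hb
    · have h3 : (ℓ : ℤ) ∣ P.b ^ (2 * P.p) := by
        have h4 : (ℓ : ℤ) ∣ P.a ^ (2 * P.p) + P.a ^ P.p * P.b ^ P.p :=
          dvd_add (dvd_pow ha h2p) (Dvd.dvd.mul_right (dvd_pow ha P.hp0) _)
        exact (dvd_add_right h4).1 hc
      exact Model_not_dvd_of_gcd P.hgcdab hℓ ha (hq.dvd_of_dvd_pow h3)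
    · have h3 : (ℓ : ℤ) ∣ P.a ^ (2 * P.p) := by
        have h4 : (ℓ : ℤ) ∣ P.a ^ P.p * P.b ^ P.p + P.b ^ (2 * P.p) :=
          dvd_add (Dvd.dvd.mul_left (dvd_pow hb P.hp0) _) (dvd_pow hb h2p)
        rw [add_assoc] at hc
        exact (dvd_add_left h4).1 hc
      exact Model_not_dvd_of_gcd P.hgcdab hℓ (hq.dvd_of_dvd_pow h3) hb
  · have e : P.a ^ (2 * P.p) + P.a ^ P.p * P.b ^ P.p + P.b ^ (2 * P.p)
        = (P.c ^ P.p) ^ 2 - P.a ^ P.p * P.b ^ P.p := by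
      rw [← P.hFLT, mul_comm 2 P.p, pow_mul, pow_mul]
      ring
    rw [e] at hc
    have h3 : (ℓ : ℤ) ∣ P.a ^ P.p * P.b ^ P.p := by
      have h4 : (ℓ : ℤ) ∣ (P.c ^ P.p) ^ 2 := dvd_pow (dvd_pow h1 P.hp0) two_ne_zero
      exact (dvd_sub_right h4).1 hc
    rcases hq.dvd_or_dvd h3 with ha | hb
    · exact Model_not_dvd_of_gcd P.hgcdac hℓ (hq.dvd_of_dvd_pow ha) h1
    · exact Model_not_dvd_of_gcd P.hgcdbc hℓ (hq.dvd_of_dvd_pow hb) h1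

/-- integrality of the coefficients over `ℚ̄` (integer casts; `S05.val_int` or `intCast_mem`). -/
theorem val_a_le_one (W : WeierstrassCurve ℤ) (A : ValuationSubring Qb) :
    A.valuation ((EQ W)⁄Qb).a₁ ≤ 1 ∧ A.valuation ((EQ W)⁄Qb).a₂ ≤ 1 ∧ A.valuation ((EQ W)⁄Qb).a₃ ≤ 1 ∧
      A.valuation ((EQ W)⁄Qb).a₄ ≤ 1 ∧ A.valuation ((EQ W)⁄Qb).a₆ ≤ 1 := by
  have key : ∀ n : ℤ, A.valuation (algebraMap ℚ Qb (Int.castRingHom ℚ n)) ≤ 1 := by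
    intro n
    rw [A.valuation_le_one_iff, eq_intCast, map_intCast]
    exact intCast_mem A n
  exact ⟨key _, key _, key _, key _, key _⟩

end Fermat.Agent.S12.Loc
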