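/-
S12 / Loc / Centre (task S12/Loc-Centre): a RATIONAL centre at the node of the Frey curve at every bad prime.

MATH.  This is contained verbatim in the proof of `S13.Loc.frey_inertia_sq` (`Fermat/Agent/S13/LocFrey.lean`): `A = a^p`, `B = b^p = 32 m`, `C = c^p`.
 * `ℓ ∣ a b` (includes `ℓ = 2`): `(e, κ, β) = (0, -A (2m), B - A)`;
 * `ℓ ∣ c` (then `ℓ` is odd): `(e, κ, β) = (A/4, (ac)^p/16, A + C)`.
Copy the two blocks (`centre_map`, the valuations `val_algebraMap_int`, `val_algebraMap_div`, `val_algebraMap_int_eq_one`) for `P.freyCurve`, then transport with `freyCurve_eq P`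
(`rw [freyCurve_eq P] at this`, or state an auxiliary lemma for `P.freyCurve⁄Qb` and finish by `freyCurve_eq P ▸ aux`).
-/
import Fermat.Agent.S12.Loc.Model
import Fermat.Agent.S13.LocFrey

set_option autoImplicit false

namespace Fermat.Agent.S12.Loc

open WeierstrassCurve WeierstrassCurve.Affine Fermat.Agent.S05 Fermat.Agent.S13.Loc
open Fermat.Agent.S31 (Qb GQ)
open Fermat.Agent.S58 (EQ Pts)

variable (P : FreyPackage)

theorem exists_centre_frey {ℓ : ℕ} (hℓ : ℓ.Prime) (hbad : (ℓ : ℤ) ∣ P.a * P.b * P.c)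
    (A : ValuationSubring Qb) (hA : A.LiesOverPrime ℓ) :
    ∃ e κ β : ℚ,
      Centre (P.freyCurve⁄Qb) (algebraMap ℚ Qb e) (algebraMap ℚ Qb κ) (algebraMap ℚ Qb β) ∧
      A.valuation (algebraMap ℚ Qb e) ≤ 1 ∧ A.valuation (algebraMap ℚ Qb κ) < 1 ∧
      A.valuation (algebraMap ℚ Qb β) = 1 := by
  have hqZ : Prime (ℓ : ℤ) := Nat.prime_iff_prime_int.mp hℓ
  have hFLT : ((P.a : ℚ) ^ P.p + (P.b : ℚ) ^ P.p = (P.c : ℚ) ^ P.p) := by exact_mod_cast P.hFLT
  have hpow : ∀ z : ℤ, (ℓ : ℤ) ∣ z ^ P.p ↔ (ℓ : ℤ) ∣ z := fun z =>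
    ⟨fun h => hqZ.dvd_of_dvd_pow h, fun h => dvd_pow h P.hp0⟩
  have h2b : (2 : ℤ) ∣ P.b := (ZMod.intCast_zmod_eq_zero_iff_dvd P.b 2).1 P.hb2
  by_cases hab : (ℓ : ℤ) ∣ P.a * P.b
  · -- node at `x = 0` (this includes `ℓ = 2`)
    obtain ⟨m, hm⟩ := Fermat.Agent.S13.frey_32_dvd P
    have hmQ : ((P.b : ℚ) ^ P.p) = 32 * (m : ℚ) := by exact_mod_cast hm
    have hc : Centre (P.freyCurve⁄Qb) (algebraMap ℚ Qb 0)
        (algebraMap ℚ Qb ((-(P.a ^ P.p) * (2 * m) : ℤ) : ℚ))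
        (algebraMap ℚ Qb ((P.b ^ P.p - P.a ^ P.p : ℤ) : ℚ)) := by
      apply centre_map
      · simp only [FreyPackage.freyCurve, WeierstrassCurve.b₂]; push_cast; ring
      · simp only [FreyPackage.freyCurve, WeierstrassCurve.b₄]; push_cast; rw [hmQ]; ring
      · simp only [FreyPackage.freyCurve, WeierstrassCurve.b₂, WeierstrassCurve.b₄,
          WeierstrassCurve.b₆]; ring
      · simp only [FreyPackage.freyCurve, WeierstrassCurve.b₂, WeierstrassCurve.b₄,
          WeierstrassCurve.b₆, WeierstrassCurve.b₈]; push_cast; rw [hmQ]; ring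
    refine ⟨0, _, _, hc, by simp, ?_, ?_⟩
    · -- `v κ < 1`
      apply (val_algebraMap_int A hℓ hA _).2.mpr
      by_cases hl2 : (ℓ : ℤ) ∣ 2
      · exact dvd_mul_of_dvd_right (dvd_mul_of_dvd_left hl2 _) _
      · -- `ℓ` odd
        have h1 : (ℓ : ℤ) ∣ P.a ^ P.p * P.b ^ P.p := by
          rw [← mul_pow]; exact (hpow _).mpr hab
        rw [hm] at h1
        have h3 : (ℓ : ℤ) ∣ 2 ^ 5 * (P.a ^ P.p * m) := by
          have e : (2 : ℤ) ^ 5 * (P.a ^ P.p * m) = P.a ^ P.p * (32 * m) := by ring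
          rw [e]; exact h1
        rcases hqZ.dvd_or_dvd h3 with h | h
        · exact absurd (hqZ.dvd_of_dvd_pow h) hl2
        · have e : -(P.a ^ P.p) * (2 * m) = (P.a ^ P.p * m) * (-2) := by ring
          rw [e]; exact dvd_mul_of_dvd_left h _
    · -- `v β = 1`
      apply val_algebraMap_int_eq_one A hℓ hA
      intro h
      rcases hqZ.dvd_or_dvd hab with h' | h'
      · have h1 : (ℓ : ℤ) ∣ P.b ^ P.p := by
          have := dvd_add h ((hpow _).mpr h')
          simpa using this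
        exact not_dvd_two_of_gcd P.hgcdab hℓ h' ((hpow _).mp h1)
      · have h1 : (ℓ : ℤ) ∣ P.a ^ P.p := by
          have := dvd_sub ((hpow _).mpr h') h
          simpa using this
        exact not_dvd_two_of_gcd P.hgcdab hℓ ((hpow _).mp h1) h'
  · have ha' : ¬ (ℓ : ℤ) ∣ P.a := fun h => hab (dvd_mul_of_dvd_left h _)
    have hb' : ¬ (ℓ : ℤ) ∣ P.b := fun h => hab (dvd_mul_of_dvd_right h _)
    have hq_2 : ¬ (ℓ : ℤ) ∣ 2 := fun h => hb' (h.trans h2b)
    have hq_4 : ¬ (ℓ : ℤ) ∣ 4 := by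
      intro h
      have : (ℓ : ℤ) ∣ 2 * 2 := by norm_num; exact h
      rcases hqZ.dvd_or_dvd this with h | h <;> exact hq_2 h
    have hq_16 : ¬ (ℓ : ℤ) ∣ 16 := by
      intro h
      have : (ℓ : ℤ) ∣ 4 * 4 := by norm_num; exact h
      rcases hqZ.dvd_or_dvd this with h | h <;> exact hq_4 h
    have hcd : (ℓ : ℤ) ∣ P.c := (hqZ.dvd_or_dvd hbad).resolve_left hab
    -- node at `x = a ^ p / 4`
    have hc : Centre (P.freyCurve⁄Qb) (algebraMap ℚ Qb (((P.a ^ P.p : ℤ) : ℚ) / ((4 : ℤ) : ℚ)))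
        (algebraMap ℚ Qb ((((P.a * P.c) ^ P.p : ℤ) : ℚ) / ((16 : ℤ) : ℚ)))
        (algebraMap ℚ Qb ((P.a ^ P.p + P.c ^ P.p : ℤ) : ℚ)) := by
      apply centre_map
      · simp only [FreyPackage.freyCurve, WeierstrassCurve.b₂]; push_cast
        linear_combination (-1 : ℚ) * hFLT
      · simp only [FreyPackage.freyCurve, WeierstrassCurve.b₂, WeierstrassCurve.b₄]; push_cast
        rw [mul_pow]
        linear_combination (-(P.a : ℚ) ^ P.p / 8) * hFLT
      · simp only [FreyPackage.freyCurve, WeierstrassCurve.b₂, WeierstrassCurve.b₄,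
          WeierstrassCurve.b₆]; push_cast
        ring
      · simp only [FreyPackage.freyCurve, WeierstrassCurve.b₂, WeierstrassCurve.b₄,
          WeierstrassCurve.b₆, WeierstrassCurve.b₈]; push_cast
        rw [mul_pow, ← hFLT]
        ring
    refine ⟨_, _, _, hc, ?_, ?_, ?_⟩
    · rw [val_algebraMap_div A hℓ hA hq_4]; exact (val_algebraMap_int A hℓ hA _).1
    · rw [val_algebraMap_div A hℓ hA hq_16]
      exact (val_algebraMap_int A hℓ hA _).2.mpr ((hpow _).mpr (dvd_mul_of_dvd_right hcd _))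
    · apply val_algebraMap_int_eq_one A hℓ hA
      intro h
      have h1 : (ℓ : ℤ) ∣ P.a ^ P.p := by
        have := dvd_sub h ((hpow _).mpr hcd)
        simpa using this
      exact ha' ((hpow _).mp h1)

theorem exists_centre_rat {ℓ : ℕ} (hℓ : ℓ.Prime) (hbad : (ℓ : ℤ) ∣ P.a * P.b * P.c)
    (A : ValuationSubring Qb) (hA : A.LiesOverPrime ℓ) :
    ∃ e κ β : ℚ,
      Centre ((EQ (Wf P))⁄Qb) (algebraMap ℚ Qb e) (algebraMap ℚ Qb κ) (algebraMap ℚ Qb β) ∧
      A.valuation (algebraMap ℚ Qb e) ≤ 1 ∧ A.valuation (algebraMap ℚ Qb κ) < 1 ∧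
      A.valuation (algebraMap ℚ Qb β) = 1 := by
  have h := exists_centre_frey P hℓ hbad A hA
  rw [freyCurve_eq P] at h
  exact h

end Fermat.Agent.S12.Loc
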