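/-
S12 / Loc / Cof (task S12/Loc-Cof): from the Prelude's `HasGaloisStableCofixedLine` for `P.freyCurve` to a generator `Q` on the integral model;
transport of the S13 facts to the integral model.

TRANSPORT.  `freyCurve_eq P : P.freyCurve = (Wf P).map (Int.castRingHom ℚ)`.  Every statement about `P.freyCurve` is an instance of a statement `Φ W'` about a variable `W' : WeierstrassCurve ℚ`:
`have h := S13....; rw [freyCurve_eq P] at h` (or `freyCurve_eq P ▸ h`, or `generalize P.freyCurve = W' at *; subst`).  `Pts (Wf P)` is by definition `(((Wf P).map (Int.castRingHom ℚ))⁄Qb).Point`.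
-/
import Fermat.Agent.S12.Loc.Model
import Fermat.Agent.S13.LocRational
import Fermat.Agent.S13.FiniteLevel
import Fermat.Agent.S58.EC.Tors

set_option autoImplicit false

namespace Fermat.Agent.S12.Loc

open WeierstrassCurve WeierstrassCurve.Affine WeierstrassCurve.Affine.Point
open Fermat.Agent.S31 (Qb GQ)
open Fermat.Agent.S58 (EQ Pts)

variable (P : FreyPackage)

/-- transport of `S13.Loc.no_rational_torsion`. -/
theorem no_fixed (Q : Pts (Wf P)) (hQ : P.p • Q = 0) (hQ0 : Q ≠ 0) (hfix : ∀ σ : GQ, σ • Q = Q) :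
    False := by
  have key : ∀ W' : WeierstrassCurve ℚ, P.freyCurve = W' → ∀ Q : (W'⁄Qb).Point, P.p • Q = 0 →
      Q ≠ 0 → (∀ σ : GQ, σ • Q = Q) → False := by
    rintro W' rfl Q hQ hQ0 hfix
    exact Fermat.Agent.S13.Loc.no_rational_torsion P Q hQ hQ0 hfix
  exact key _ (freyCurve_eq P) Q hQ hQ0 hfix

/-- transport of `S13.frey_finite_level`. -/
theorem finite_level : ∃ F₀ : IntermediateField ℚ Qb, FiniteDimensional ℚ F₀ ∧
    ∀ σ : GQ, σ ∈ F₀.fixingSubgroup → ∀ R : Pts (Wf P), P.p • R = 0 → σ • R = R := by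
  have key : ∀ W' : WeierstrassCurve ℚ, P.freyCurve = W' →
      ∃ F₀ : IntermediateField ℚ Qb, FiniteDimensional ℚ F₀ ∧
        ∀ σ : GQ, σ ∈ F₀.fixingSubgroup → ∀ R : (W'⁄Qb).Point, P.p • R = 0 → σ • R = R := by
    rintro W' rfl
    obtain ⟨F₀, h1, h2⟩ := Fermat.Agent.S13.frey_finite_level P
    refine ⟨F₀, h1, fun σ hσ R hR => ?_⟩
    have hmem : R ∈ Submodule.torsionBy ℤ (P.freyCurve⁄Qb).Point P.p := by
      rw [Submodule.mem_torsionBy_iff, Nat.cast_smul_eq_nsmul]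
      exact hR
    exact congrArg Subtype.val (h2 σ hσ ⟨R, hmem⟩)
  exact key _ (freyCurve_eq P)

/-- `#E[p] = p²`  (`S58.EC.card_torsion`, `Wf_Δ_ne_zero`, `WeierstrassCurve.map_Δ`). -/
theorem card_tors : Nat.card {R : Pts (Wf P) // P.p • R = 0} = P.p ^ 2 := by
  refine Fermat.Agent.S58.EC.card_torsion (V := ((EQ (Wf P))⁄Qb)) ?_ P.p P.pp.pos
  have h1 : ((EQ (Wf P))⁄Qb).Δ = algebraMap ℚ Qb (Int.castRingHom ℚ (Wf P).Δ) := by
    rw [← WeierstrassCurve.map_Δ]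
    exact WeierstrassCurve.map_Δ _ _
  rw [h1]
  simpa using Wf_Δ_ne_zero P

/-- abstract linear algebra: a proper nonzero subspace of a `ZMod p`-space with `p²` elements is generated by any of its nonzero elements. -/
theorem Cof_line {p : ℕ} [Fact p.Prime] {V : Type*} [AddCommGroup V] [Module (ZMod p) V]
    (hcard : Nat.card V = p ^ 2) (N : Submodule (ZMod p) V) (hbot : N ≠ ⊥) (htop : N ≠ ⊤) :
    ∃ x ∈ N, x ≠ 0 ∧ ∀ y ∈ N, ∃ k : ℕ, y = k • x := by
  have hp : p.Prime := Fact.out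
  have hfin : Finite V := Nat.finite_of_card_ne_zero (by rw [hcard]; exact pow_ne_zero _ hp.ne_zero)
  have hfd : FiniteDimensional (ZMod p) V := Module.Finite.of_finite
  have h2 : Module.finrank (ZMod p) V = 2 := by
    have h := Module.natCard_eq_pow_finrank (K := ZMod p) (V := V)
    rw [hcard, Nat.card_zmod] at h
    exact (Nat.pow_right_injective hp.two_le h).symm
  have h3 : Module.finrank (ZMod p) N < 2 := h2 ▸ Submodule.finrank_lt htop
  have h4 : 0 < Module.finrank (ZMod p) N := by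
    rw [Nat.pos_iff_ne_zero, Ne, Submodule.finrank_eq_zero]
    exact hbot
  have h5 : Module.finrank (ZMod p) N = 1 := by omega
  obtain ⟨x, hxN, hx0⟩ := N.ne_bot_iff.1 hbot
  refine ⟨x, hxN, hx0, fun y hy => ?_⟩
  obtain ⟨c, hc⟩ := (finrank_eq_one_iff_of_nonzero' (⟨x, hxN⟩ : N)
    (fun h => hx0 (congrArg Subtype.val h))).1 h5 ⟨y, hy⟩
  refine ⟨c.val, ?_⟩
  have h6 := congrArg Subtype.val hc
  simp only [SetLike.mk_smul_mk] at h6
  rw [← h6, ← Nat.cast_smul_eq_nsmul (ZMod p), ZMod.natCast_val, ZMod.cast_id', id]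

/-- MATH.  `rw [freyCurve_eq P] at h`; `h = ⟨N, stable, N ≠ ⊥, N ≠ ⊤, cofixed⟩`, `V := torsionBy ℤ (Pts) p` a `ZMod p`-vector space with `p²` elements (`card_tors`; or only `≤ p²`: `S13.freyV_card_le`), so `finrank V ≤ 2`,
`0 < finrank N < finrank V` (`Submodule.finrank_lt`, `Submodule.finrank_pos`/`Submodule.one_le_finrank_iff`), `finrank N = 1`; take `0 ≠ x ∈ N`, `Q := x.1`: `N = span {x}` (`finrank_eq_one_iff'` / `exists_smul_eq_of_finrank_eq_one`), every element of `N` is `c • x`, `c : ZMod p`, `c • x = c.val • x`.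
`addOrderOf Q = p`: `p • Q = 0`, `Q ≠ 0`, `p` prime (`addOrderOf_eq_prime`). -/
theorem exists_isCof
    (h : HasGaloisStableCofixedLine (K := AlgebraicClosure ℚ) ℚ P.freyCurve P.p) :
    ∃ Q : Pts (Wf P), IsCof P Q := by
  rw [freyCurve_eq P] at h
  obtain ⟨N, hst, hbot, htop, hcof⟩ := h
  have : Fact P.p.Prime := ⟨P.pp⟩
  have hmem : ∀ R : Pts (Wf P), R ∈ Submodule.torsionBy ℤ (Pts (Wf P)) P.p ↔ P.p • R = 0 := by
    intro R
    rw [Submodule.mem_torsionBy_iff, Nat.cast_smul_eq_nsmul]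
  have hcard : Nat.card (Submodule.torsionBy ℤ (Pts (Wf P)) P.p) = P.p ^ 2 := by
    rw [← card_tors P]
    exact Nat.card_congr (Equiv.subtypeEquivRight hmem)
  obtain ⟨x, hxN, hx0, hgen⟩ := Cof_line hcard N hbot htop
  have hx0' : (x : Pts (Wf P)) ≠ 0 := fun h0 => hx0 (Subtype.ext h0)
  refine ⟨x.1, ?_, fun σ => ?_, fun σ R hR => ?_⟩
  · exact addOrderOf_eq_prime ((hmem _).1 x.2) hx0'
  · obtain ⟨k, hk⟩ := hgen _ (hst σ x hxN)
    exact ⟨k, congrArg Subtype.val hk⟩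
  · obtain ⟨k, hk⟩ := hgen _ (hcof σ ⟨R, (hmem R).2 hR⟩)
    exact ⟨k, congrArg Subtype.val hk⟩

variable {P}

theorem IsCof.nsmul_eq_zero {Q : Pts (Wf P)} (h : IsCof P Q) : P.p • Q = 0 := by
  rw [← h.order]; exact addOrderOf_nsmul_eq_zero Q

theorem IsCof.ne_zero {Q : Pts (Wf P)} (h : IsCof P Q) : Q ≠ 0 := by
  intro h0
  have := h.order
  rw [h0, addOrderOf_zero] at this
  exact P.pp.one_lt.ne this

/-- `k • Q = 0 ↔ p ∣ k`  (`addOrderOf_dvd_iff_nsmul_eq_zero`). -/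
theorem IsCof.nsmul_eq_zero_iff {Q : Pts (Wf P)} (h : IsCof P Q) (k : ℕ) : k • Q = 0 ↔ P.p ∣ k := by
  rw [← h.order]; exact addOrderOf_dvd_iff_nsmul_eq_zero.symm

/-- abstract form of `IsCof.exists_indep`. -/
theorem Cof_indep_aux {G : Type*} [AddCommGroup G] {p : ℕ} (hp : p.Prime) {Q : G}
    (hQ : p • Q = 0) (hcard : Nat.card {R : G // p • R = 0} = p ^ 2) :
    ∃ R : G, p • R = 0 ∧ ∀ k : ℕ, R ≠ k • Q := by
  by_contra hcon
  push Not at hcon
  have hsurj : Function.Surjective (fun k : Fin p =>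
      (⟨(k : ℕ) • Q, by rw [smul_comm, hQ, smul_zero]⟩ : {R : G // p • R = 0})) := by
    rintro ⟨R, hR⟩
    obtain ⟨k, hk⟩ := hcon R hR
    refine ⟨⟨k % p, Nat.mod_lt _ hp.pos⟩, Subtype.ext ?_⟩
    show (k % p) • Q = R
    rw [hk]
    conv_rhs => rw [← Nat.mod_add_div k p, add_smul, mul_comm, mul_smul, hQ, smul_zero, add_zero]
  have h1 := Nat.card_le_card_of_surjective _ hsurj
  rw [hcard, Nat.card_fin] at h1
  have h2 : p < p ^ 2 := by
    have := hp.one_lt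
    nlinarith
  omega

/-- abstract form of `IsCof.dvd_of_zsmul_eq`. -/
theorem Cof_bezout_aux {G : Type*} [AddCommGroup G] {p : ℕ} (hp : p.Prime) {Q R : G}
    (hQ : p • Q = 0) (hR : p • R = 0) (hRQ : ∀ k : ℕ, R ≠ k • Q) {m n : ℤ}
    (hm : m • R = n • Q) : (p : ℤ) ∣ m := by
  by_contra hnd
  have hpz : Prime (p : ℤ) := Nat.prime_iff_prime_int.1 hp
  have hcop : IsCoprime m (p : ℤ) := ((hpz.coprime_iff_not_dvd).2 hnd).symm
  obtain ⟨u, v, huv⟩ := hcop
  have hR' : (p : ℤ) • R = 0 := by rw [Nat.cast_smul_eq_nsmul]; exact hR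
  have hQ' : (p : ℤ) • Q = 0 := by rw [Nat.cast_smul_eq_nsmul]; exact hQ
  have h1 : R = (u * n) • Q := by
    calc R = (u * m + v * (p : ℤ)) • R := by rw [huv, one_smul]
      _ = u • (m • R) + v • ((p : ℤ) • R) := by rw [add_smul, mul_smul, mul_smul]
      _ = (u * n) • Q := by rw [hm, hR', smul_zero, add_zero, mul_smul]
  have hpos : (0 : ℤ) < p := by exact_mod_cast hp.pos
  refine hRQ ((u * n) % (p : ℤ)).toNat ?_
  have h2 : (((u * n) % (p : ℤ)).toNat : ℤ) = (u * n) % (p : ℤ) :=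
    Int.toNat_of_nonneg (Int.emod_nonneg _ hpos.ne')
  rw [← Nat.cast_smul_eq_nsmul ℤ, h2, h1]
  conv_lhs => rw [← Int.emod_add_mul_ediv (u * n) (p : ℤ), add_smul, mul_comm (p : ℤ), mul_smul,
    hQ', smul_zero, add_zero]

/-- `E[p] ≠ ⟨Q⟩`: `p² > p`  (`card_tors`; the multiples `k • Q`, `k < p`, are at most `p` points). -/
theorem IsCof.exists_indep {Q : Pts (Wf P)} (h : IsCof P Q) :
    ∃ R : Pts (Wf P), P.p • R = 0 ∧ ∀ k : ℕ, R ≠ k • Q := by
  exact Cof_indep_aux P.pp h.nsmul_eq_zero (card_tors P)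

/-- if `m • R ∈ ⟨Q⟩` with `R ∈ E[p] \ ⟨Q⟩` then `p ∣ m`  (else `u m + v p = 1`, `R = u • (m • R) ∈ ⟨Q⟩`). -/
theorem IsCof.dvd_of_zsmul_eq {Q : Pts (Wf P)} (_h : IsCof P Q) {R : Pts (Wf P)} (hR : P.p • R = 0)
    (hRQ : ∀ k : ℕ, R ≠ k • Q) {m n : ℤ} (hm : m • R = n • Q) : (P.p : ℤ) ∣ m := by
  exact Cof_bezout_aux P.pp _h.nsmul_eq_zero hR hRQ hm

end Fermat.Agent.S12.Loc
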