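/-
S12 / Loc / Good (task S12/Loc-Good): a Frobenius element at a good prime `r ≠ p` acts on the cofixed line by `1` or by `r`, and `p ∣ #E~(𝔽_r)`.

MATH.  `a := (Wf P).apOfModel r`.  `S58.EC.quadRel_frobenius (Wf P) hr hgood (m := P.p) P.hp_odd (r ∤ p) A hA φ hφ : ∀ R, p • R = 0 → φ • φ • R - a • φ • R + (r : ℤ) • R = 0`.
`φ • Q = l • Q` (`h.stable`).  Take `R ∈ E[p] \ ⟨Q⟩` (`h.exists_indep`), `φ • R = R + k • Q` (`h.cofixed`).  `φ • φ • R = R + k • Q + (k l) • Q`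
(`smul_add`, `smul_nsmul`-type lemma: `σ • (k • Q) = k • σ • Q`, e.g. `map_nsmul (DistribSMul.toAddMonoidHom _ σ)`).  So `(1 - a + r) • R = n • Q` for some `n : ℤ`: `p ∣ 1 - a + r` (`h.dvd_of_zsmul_eq`).
For `Q`: `(l² - a l + r) • Q = 0`, so `p ∣ l² - a l + r`, hence `p ∣ (l - 1)(l - r)`  [`l² - a l + r = (l-1)(l-r) + (1 + r - a) l`]; `p` prime: `p ∣ l - 1` (then `l • Q = Q`) or `p ∣ l - r` (then `l • Q = r • Q`).
-/
import Fermat.Agent.S12.Loc.Cof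
import Fermat.Agent.S58.EC.Frob

set_option autoImplicit false

namespace Fermat.Agent.S12.Loc

open WeierstrassCurve WeierstrassCurve.Affine
open Fermat.Agent.S31 (Qb GQ)
open Fermat.Agent.S58 (EQ Pts)

variable {P : FreyPackage}

theorem Good_smul_add (σ : GQ) (R S : Pts (Wf P)) : σ • (R + S) = σ • R + σ • S :=
  smul_add σ R S

/-- `z • Q = z' • Q` for integers `z ≡ z' mod p`. -/
theorem IsCof.zsmul_eq_zsmul {Q : Pts (Wf P)} (h : IsCof P Q) {z z' : ℤ} (hz : (P.p : ℤ) ∣ z - z') :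
    z • Q = z' • Q := by
  obtain ⟨w, hw⟩ := hz
  have h1 : z = z' + w * (P.p : ℤ) := by linarith [hw, mul_comm (P.p : ℤ) w]
  rw [h1, add_zsmul, mul_zsmul, natCast_zsmul, h.nsmul_eq_zero, zsmul_zero, add_zero]

/-- `z • Q = 0 → p ∣ z`. -/
theorem IsCof.dvd_of_zsmul_eq_zero {Q : Pts (Wf P)} (h : IsCof P Q) {z : ℤ} (hz : z • Q = 0) :
    (P.p : ℤ) ∣ z := by
  rw [← h.order]
  exact addOrderOf_dvd_iff_zsmul_eq_zero.2 hz

theorem IsCof.frob_good {Q : Pts (Wf P)} (h : IsCof P Q) {r : ℕ} (hr : r.Prime)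
    (hgood : (Wf P).IsGoodPrimeFor r) (hrp : r ≠ P.p) (A : ValuationSubring Qb)
    (hA : A.LiesOverPrime r) (φ : GQ) (hφ : A.IsFrobeniusAt φ r) :
    ((P.p : ℤ) ∣ (r : ℤ) + 1 - (Wf P).apOfModel r) ∧ (φ • Q = Q ∨ φ • Q = r • Q) := by
  have hrel := S58.EC.quadRel_frobenius (Wf P) hr hgood (m := P.p) P.hp_odd
    (fun hd => hrp ((Nat.prime_dvd_prime_iff_eq hr P.pp).1 hd)) A hA φ hφ
  set a : ℤ := (Wf P).apOfModel r with ha
  obtain ⟨l, hl⟩ := h.stable φ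
  obtain ⟨R, hR, hRQ⟩ := h.exists_indep
  obtain ⟨k, hk⟩ := h.cofixed φ R hR
  rw [← natCast_zsmul] at hl hk
  have hφR : φ • R = R + (k : ℤ) • Q := by rw [← hk]; abel
  have hφφR : φ • φ • R = R + (k : ℤ) • Q + ((k : ℤ) * l) • Q := by
    rw [hφR, Good_smul_add, hφR, Point.algEquiv_smul_zsmul, hl, mul_zsmul]
  have hφφQ : φ • φ • Q = ((l : ℤ) * l) • Q := by
    rw [hl, Point.algEquiv_smul_zsmul, hl, mul_zsmul]
  have h1 := hrel R hR
  rw [hφφR, hφR] at h1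
  have h2 : ((r : ℤ) + 1 - a) • R = (a * k - k - k * l) • Q := by
    linear_combination (norm := module) h1
  have hd1 : (P.p : ℤ) ∣ (r : ℤ) + 1 - a := h.dvd_of_zsmul_eq hR hRQ h2
  refine ⟨hd1, ?_⟩
  have h3 := hrel Q h.nsmul_eq_zero
  rw [hφφQ, hl] at h3
  have h4 : ((l : ℤ) * l - a * l + r) • Q = 0 := by
    linear_combination (norm := module) h3
  have hd2 : (P.p : ℤ) ∣ (l : ℤ) * l - a * l + r := h.dvd_of_zsmul_eq_zero h4
  have hd3 : (P.p : ℤ) ∣ ((l : ℤ) - 1) * ((l : ℤ) - r) := by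
    have e : ((l : ℤ) - 1) * ((l : ℤ) - r) = ((l : ℤ) * l - a * l + r) - ((r : ℤ) + 1 - a) * l := by
      ring
    rw [e]
    exact dvd_sub hd2 (Dvd.dvd.mul_right hd1 _)
  rcases (Nat.prime_iff_prime_int.1 P.pp).dvd_or_dvd hd3 with h5 | h5
  · left
    rw [hl, h.zsmul_eq_zsmul h5, one_zsmul]
  · right
    rw [hl, h.zsmul_eq_zsmul h5, natCast_zsmul]

end Fermat.Agent.S12.Loc
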