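/-
S12 / Loc / Count (task S12/Loc-Count): (1b) every prime `ℓ` with `2 ℓ < p` divides `abc`.

MATH.  Suppose not.  Then `ℓ ∤ Δ` (`dvd_Δ_iff`), i.e. `(Wf P).IsGoodPrimeFor ℓ`, `ℓ ≠ p`, `ℓ ≠ 2` (`P.two_dvd_abc`).  Take `A | ℓ` and a Frobenius `φ` (`S54.exists_frob`).
`h.frob_good`: `p ∣ ℓ + 1 - a_ℓ = n := Nat.card (W₀.toAffine.Point)`, `W₀ := (Wf P).reductionMod ℓ` (unfold `apOfModel`, `traceOfFrobenius`, `card`, `Nat.card_zmod`, as in `S58.apOfModel_bound`).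
`n ≤ 2 ℓ + 1` (`S58.Count_card_point_le`), `0 < n`.  `T := (0,0)` is a point of `W₀` (`a₆ = 0`; nonsingular because `W₀.Δ ≠ 0`: `Affine.equation_iff_nonsingular_of_Δ_ne_zero`), `T ≠ 0`, `-T = T`
(`negY 0 0 = -0 - a₁ 0 - a₃ = 0`, `a₃ = 0`), so `addOrderOf T = 2` divides `n` (`addOrderOf_dvd_natCard`).  `p` odd prime: `2 p ∣ n`, so `2 p ≤ n ≤ 2 ℓ + 1 < 2 p`: contradiction.
-/
import Fermat.Agent.S12.Loc.Good
import Fermat.Agent.S58.Count
import Fermat.Agent.S54.Frobenius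

set_option autoImplicit false

namespace Fermat.Agent.S12.Loc

open WeierstrassCurve WeierstrassCurve.Affine
open Fermat.Agent.S31 (Qb GQ)
open Fermat.Agent.S58 (EQ Pts)

variable {P : FreyPackage}

/-- the number of points of the reduction at a good odd prime is even. -/
theorem even_card_red {ℓ : ℕ} [Fact ℓ.Prime] (hgood : (Wf P).IsGoodPrimeFor ℓ) :
    2 ∣ Nat.card ((Wf P).reductionMod ℓ).toAffine.Point := by
  classical
  have hΔ : ((Wf P).reductionMod ℓ).Δ ≠ 0 := by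
    unfold WeierstrassCurve.reductionMod
    rw [WeierstrassCurve.map_Δ]
    intro h0
    exact hgood ((ZMod.intCast_zmod_eq_zero_iff_dvd _ ℓ).mp h0)
  have ha₆ : ((Wf P).reductionMod ℓ).a₆ = 0 := by
    show (Int.castRingHom (ZMod ℓ)) (0 : ℤ) = 0
    exact map_zero _
  have ha₃ : ((Wf P).reductionMod ℓ).a₃ = 0 := by
    show (Int.castRingHom (ZMod ℓ)) (0 : ℤ) = 0
    exact map_zero _
  have heq : ((Wf P).reductionMod ℓ).toAffine.Equation 0 0 :=
    Affine.equation_zero.mpr ha₆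
  have hns : ((Wf P).reductionMod ℓ).toAffine.Nonsingular 0 0 :=
    (Affine.equation_iff_nonsingular_of_Δ_ne_zero hΔ).mp heq
  have hneg : -(Point.some 0 0 hns) = Point.some 0 0 hns := by
    rw [Point.neg_some]
    congr 1
    rw [Affine.negY, ha₃]
    ring
  have h2 : 2 • (Point.some 0 0 hns) = 0 := by
    rw [two_nsmul]
    nth_rewrite 2 [← hneg]
    exact add_neg_cancel _
  have hne : Point.some 0 0 hns ≠ 0 := Point.some_ne_zero _
  have hord : addOrderOf (Point.some 0 0 hns) = 2 := addOrderOf_eq_prime h2 hne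
  rw [← hord]
  exact addOrderOf_dvd_natCard _

/-- **(1b)** -/
theorem IsCof.dvd_abc {Q : Pts (Wf P)} (h : IsCof P Q) {ℓ : ℕ} (hℓ : ℓ.Prime) (h2 : 2 * ℓ < P.p) :
    (ℓ : ℤ) ∣ P.a * P.b * P.c := by
  by_contra hnd
  have : Fact ℓ.Prime := ⟨hℓ⟩
  have hgood : (Wf P).IsGoodPrimeFor ℓ := fun hd => hnd ((dvd_Δ_iff hℓ).mp hd)
  have hℓp : ℓ ≠ P.p := by omega
  obtain ⟨A, hA, φ, hφ⟩ := Fermat.Agent.S54.exists_frob ℓ hℓ
  have h1 := (h.frob_good hℓ hgood hℓp A hA φ hφ).1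
  have h3 := Fermat.Agent.S58.Count_card_point_le ((Wf P).reductionMod ℓ)
  have h4 : 0 < Nat.card ((Wf P).reductionMod ℓ).toAffine.Point := Nat.card_pos
  rw [Nat.card_zmod] at h3
  have h5 : (ℓ : ℤ) + 1 - (Wf P).apOfModel ℓ
      = (Nat.card ((Wf P).reductionMod ℓ).toAffine.Point : ℤ) := by
    unfold WeierstrassCurve.apOfModel WeierstrassCurve.traceOfFrobenius WeierstrassCurve.card
    rw [Nat.card_zmod]; ring
  rw [h5] at h1
  have h6 : P.p ∣ Nat.card ((Wf P).reductionMod ℓ).toAffine.Point := Int.natCast_dvd_natCast.mp h1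
  have h7 := even_card_red (P := P) hgood
  have hcop : Nat.Coprime 2 P.p := by
    rw [Nat.coprime_two_left]
    exact P.hp_odd
  have h8 : 2 * P.p ∣ Nat.card ((Wf P).reductionMod ℓ).toAffine.Point :=
    Nat.Coprime.mul_dvd_of_dvd_of_dvd hcop h7 h6
  have h9 := Nat.le_of_dvd h4 h8
  omega

end Fermat.Agent.S12.Loc
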