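/-
S12 / Loc / Cyclo (task S12/Loc-Cyclo): (1a) `G_ℚ` acts on the cofixed line through the mod `p` cyclotomic character.

MATH.  `ζ` a primitive `p`-th root of unity.
(i) `smul_eq_or`: let `F₀` be as in `finite_level P`, `L := F₀ ⊔ ℚ⟮ζ⟯` (finite dimensional: `IntermediateField.finiteDimensional_sup`, `IntermediateField.adjoin.finiteDimensional` with `ζ` integral),
 `S := (primeFactors of |Δ|) ∪ {p}` (`(Wf P).Δ.natAbs.primeFactors`, `Wf_Δ_ne_zero`).  `FD.frobPowerDensity L _ σ S` gives `r ∉ S` prime, `A | r`, `φ` Frobenius, `j` with `σ x = (φ ^ j) x` on `L`.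
 So `r ≠ p`, `(Wf P).IsGoodPrimeFor r`.  `(σ⁻¹ * φ ^ j)` fixes `F₀` pointwise, so it fixes `Q`: `σ • Q = φ ^ j • Q`.  `σ ζ = (φ ^ j) ζ = ζ ^ (r ^ j)` (`S31.frob_pow_apply_root`).
 `h.frob_good`: `φ • Q = Q` (then `φ ^ j • Q = Q`) or `φ • Q = r • Q` (then `φ ^ j • Q = r ^ j • Q` by induction); in the second case `σ ζ = ζ ^ i` gives `ζ ^ i = ζ ^ (r ^ j)`, `i ≡ r ^ j mod p`
 (`IsPrimitiveRoot.pow_inj`-type: `hζ.pow_eq_pow_iff_modEq`/`IsPrimitiveRoot.zpow_eq_one_iff_dvd`), so `i • Q = r ^ j • Q` (`h.zsmul_eq_zsmul` or `nsmul` version via `addOrderOf`: `Nat.ModEq` + `nsmul_eq_nsmul_iff_modEq`).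
(ii) `H₁ := {σ | σ • Q = Q}`, `H₂ := {σ | ∀ i, σ ζ = ζ ^ i → σ • Q = i • Q}` are closed under multiplication and inverses; `G = H₁ ∪ H₂`.  If `g ∉ H₂` and `g' ∉ H₁` then `g ∈ H₁`, `g' ∈ H₂`, and `g g'` is in neither: contradiction.
 [`g g' ∈ H₁ ⟹ g' = g⁻¹ (g g') ∈ H₁`; `g g' ∈ H₂ ⟹ g = (g g') g'⁻¹ ∈ H₂`.]  Direct version avoiding subgroups: for every `σ` there is `i` with `σ ζ = ζ ^ i` (`IsPrimitiveRoot.eq_pow_of_pow_eq_one`), `χ(σ τ) = χ(σ) χ(τ)`.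
 So `H₁ = G` (impossible: `no_fixed`) or `H₂ = G`.
-/
import Fermat.Agent.S12.Loc.Good
import Fermat.Agent.Lib.FrobDensity.ForES

set_option autoImplicit false

namespace Fermat.Agent.S12.Loc

open WeierstrassCurve WeierstrassCurve.Affine
open Fermat.Agent.S31 (Qb GQ)
open Fermat.Agent.S58 (EQ Pts)

variable {P : FreyPackage}

/-- `ζ ^ i = ζ ^ i'` implies `i • Q = i' • Q`. -/
theorem Cyclo_nsmul_eq {Q : Pts (Wf P)} (h : IsCof P Q) {ζ : Qb} (hζ : IsPrimitiveRoot ζ P.p)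
    {i i' : ℕ} (hi : ζ ^ i = ζ ^ i') : i • Q = i' • Q := by
  have hfin : IsOfFinOrder ζ := isOfFinOrder_iff_pow_eq_one.2 ⟨P.p, P.pp.pos, hζ.pow_eq_one⟩
  have h1 := hfin.pow_eq_pow_iff_modEq.1 hi
  rw [← hζ.eq_orderOf, ← h.order] at h1
  exact nsmul_eq_nsmul_iff_modEq.2 h1

theorem IsCof.smul_eq_or {Q : Pts (Wf P)} (h : IsCof P Q) {ζ : Qb} (hζ : IsPrimitiveRoot ζ P.p)
    (σ : GQ) : σ • Q = Q ∨ ∀ i : ℕ, σ ζ = ζ ^ i → σ • Q = i • Q := by
  obtain ⟨F₀, hF₀, hfix⟩ := finite_level P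
  have hζint : IsIntegral ℚ ζ := (hζ.isIntegral P.pp.pos).tower_top
  have hfd2 : FiniteDimensional ℚ (IntermediateField.adjoin ℚ {ζ}) :=
    IntermediateField.adjoin.finiteDimensional hζint
  have hL : FiniteDimensional ℚ (F₀ ⊔ IntermediateField.adjoin ℚ {ζ} : IntermediateField ℚ Qb) :=
    IntermediateField.finiteDimensional_sup _ _
  obtain ⟨r, A, φ, j, hr, hrS, hA, hφ, hσ⟩ :=
    FD.frobPowerDensity _ hL σ ((Wf P).Δ.natAbs.primeFactors ∪ {P.p})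
  have hrp : r ≠ P.p := fun e => hrS (Finset.mem_union_right _ (Finset.mem_singleton.2 e))
  have hgood : (Wf P).IsGoodPrimeFor r := by
    intro hd
    apply hrS
    apply Finset.mem_union_left
    rw [Nat.mem_primeFactors]
    exact ⟨hr, Int.natCast_dvd.1 hd, Int.natAbs_ne_zero.2 (Wf_Δ_ne_zero P)⟩
  have hrndvd : ¬ r ∣ P.p := fun hd => hrp ((Nat.prime_dvd_prime_iff_eq hr P.pp).1 hd)
  have h1 : σ • Q = (φ ^ j) • Q := by
    have hmem : σ⁻¹ * φ ^ j ∈ F₀.fixingSubgroup := by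
      rw [IntermediateField.mem_fixingSubgroup_iff]
      intro x hx
      have hx' : x ∈ (F₀ ⊔ IntermediateField.adjoin ℚ {ζ} : IntermediateField ℚ Qb) :=
        (le_sup_left : F₀ ≤ F₀ ⊔ IntermediateField.adjoin ℚ {ζ}) hx
      change σ⁻¹ ((φ ^ j) x) = x
      rw [← hσ x hx']
      exact σ.symm_apply_apply x
    have h2 := hfix _ hmem Q h.nsmul_eq_zero
    rw [mul_smul, inv_smul_eq_iff] at h2
    exact h2.symm
  have h2 : σ ζ = ζ ^ (r ^ j) := by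
    have hx' : ζ ∈ (F₀ ⊔ IntermediateField.adjoin ℚ {ζ} : IntermediateField ℚ Qb) :=
      (le_sup_right : IntermediateField.adjoin ℚ {ζ} ≤ F₀ ⊔ IntermediateField.adjoin ℚ {ζ})
        (IntermediateField.mem_adjoin_simple_self ℚ ζ)
    rw [hσ ζ hx', Fermat.Agent.S31.frob_pow_apply_root A hr hA φ hφ hrndvd hζ.pow_eq_one j]
  rcases (h.frob_good hr hgood hrp A hA φ hφ).2 with h3 | h3
  · left
    have hpow : ∀ n : ℕ, (φ ^ n) • Q = Q := by
      intro n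
      induction n with
      | zero => rw [pow_zero, one_smul]
      | succ n ih => rw [pow_succ, mul_smul, h3, ih]
    rw [h1, hpow]
  · right
    intro i hi
    have hpow : ∀ n : ℕ, (φ ^ n) • Q = (r ^ n) • Q := by
      intro n
      induction n with
      | zero => rw [pow_zero, one_smul, pow_zero, one_smul]
      | succ n ih => rw [pow_succ, mul_smul, h3, ← smul_comm r (φ ^ n) Q, ih, smul_smul, ← pow_succ']
    rw [h1, hpow]
    have h5 : ζ ^ i = ζ ^ (r ^ j) := hi.symm.trans h2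
    exact (Cyclo_nsmul_eq h hζ h5).symm

/-- **(1a)** -/
theorem IsCof.smul_eq {Q : Pts (Wf P)} (h : IsCof P Q) {ζ : Qb} (hζ : IsPrimitiveRoot ζ P.p)
    (σ : GQ) (i : ℕ) (hi : σ ζ = ζ ^ i) : σ • Q = i • Q := by
  have hp0 : NeZero P.p := ⟨P.pp.ne_zero⟩
  by_cases hall : ∀ τ : GQ, ∀ n : ℕ, τ ζ = ζ ^ n → τ • Q = n • Q
  · exact hall σ i hi
  exfalso
  push Not at hall
  obtain ⟨g, n, hgn, hgQ⟩ := hall
  have hg1 : g • Q = Q := (h.smul_eq_or hζ g).resolve_right fun h2 => hgQ (h2 n hgn)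
  refine no_fixed P Q h.nsmul_eq_zero h.ne_zero fun g' => ?_
  by_contra hg'
  have hg2 : ∀ m : ℕ, g' ζ = ζ ^ m → g' • Q = m • Q := (h.smul_eq_or hζ g').resolve_left hg'
  obtain ⟨m, -, hm⟩ := hζ.eq_pow_of_pow_eq_one (ξ := g' ζ) (by
    rw [← map_pow, hζ.pow_eq_one, map_one])
  have hg'Q : g' • Q = m • Q := hg2 m hm.symm
  rcases h.smul_eq_or hζ (g * g') with h3 | h3
  · apply hg'
    rw [mul_smul] at h3
    have h4 : g • g' • Q = g • Q := by rw [h3, hg1]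
    exact (MulAction.injective g) h4
  · have h4 : (g * g') ζ = ζ ^ (n * m) := by
      change g (g' ζ) = _
      rw [← hm, map_pow, hgn, ← pow_mul]
    have h5 := h3 _ h4
    rw [mul_smul, hg'Q, ← smul_comm m g Q, hg1] at h5
    -- `m • Q = (n * m) • Q`
    have h6 : 1 * m ≡ n * m [MOD P.p] := by
      rw [one_mul, ← h.order]
      exact nsmul_eq_nsmul_iff_modEq.1 h5
    have hcop : Nat.gcd P.p m = 1 := by
      rw [← Nat.coprime_iff_gcd_eq_one, Nat.Prime.coprime_iff_not_dvd P.pp]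
      intro hd
      have h7 : g' ζ = 1 := by rw [← hm, (hζ.pow_eq_one_iff_dvd m).2 hd]
      have h8 : ζ = 1 := by
        apply g'.injective
        rw [h7, map_one]
      exact hζ.ne_one P.pp.one_lt h8
    have h7 : 1 ≡ n [MOD P.p] := Nat.ModEq.cancel_right_of_coprime hcop h6
    rw [← h.order] at h7
    have h8 : 1 • Q = n • Q := nsmul_eq_nsmul_iff_modEq.2 h7
    apply hgQ
    rw [hg1, ← h8, one_smul]

/-- a Frobenius element at ANY prime `ℓ ≠ p` (good or bad) acts on the line by `ℓ`  (`S31.frob_apply_root`). -/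
theorem IsCof.frob_smul {Q : Pts (Wf P)} (h : IsCof P Q) {ℓ : ℕ} (hℓ : ℓ.Prime) (hℓp : ℓ ≠ P.p)
    (A : ValuationSubring Qb) (hA : A.LiesOverPrime ℓ) (φ : GQ) (hφ : A.IsFrobeniusAt φ ℓ) :
    φ • Q = ℓ • Q := by
  have hp0 : NeZero P.p := ⟨P.pp.ne_zero⟩
  have hp0' : NeZero (P.p : Qb) := ⟨Nat.cast_ne_zero.mpr P.pp.ne_zero⟩
  obtain ⟨ζ, hζ⟩ := HasEnoughRootsOfUnity.exists_primitiveRoot Qb P.p
  have hnd : ¬ ℓ ∣ P.p := fun hd => hℓp ((Nat.prime_dvd_prime_iff_eq hℓ P.pp).1 hd)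
  exact h.smul_eq hζ φ ℓ (Fermat.Agent.S31.frob_apply_root A hℓ hA φ hφ hnd hζ.pow_eq_one)

end Fermat.Agent.S12.Loc
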