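/-
S12 / Loc / Zero (task S12/Loc-Zero): (1c) the cofixed line lies in the zero component at every bad prime `ℓ` with `ℓ + 1 < p`.

MATH.  `v := A.valuation`, `(e, κ, β)` rational centre (`exists_centre_rat`), `φ` a Frobenius element at `A` (`S54.exists_isFrobeniusAt ℓ hℓ A hA`), `φ ∈ D_A` (`hφ.mem_decompositionSubgroup`).
Suppose `Q ∉ E0` (`¬ InE0 v e Q`).  `S13.Loc.kappa_lt_of_not_inE0` (`p` odd, `p • Q = 0`): `v κ < v (xc Q - e) < 1`.
`xc (φ • Q) = φ (xc Q)` (`S05.xc_map`; see `S13.Loc.inert_of_mem_inertia`), `φ e = e` (`φ.commutes`), so `v (xc (φ • Q) - e) = v (φ (xc Q - e)) = v (xc Q - e)` (`S05.val_sigma_of_mem_decomposition`; `Algebra.IsAlgebraic ℚ Qb` as in `inert_of_mem_inertia`).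
`φ • Q = ℓ • Q` (`h.frob_smul`), `≠ 0` (`p ∤ ℓ`).  `branch_dichotomy` (`P₁ = Q`, `P₂ = ℓ • Q`; `val_a_le_one`): `(ℓ - 1) • Q ∈ E0` or `(ℓ + 1) • Q ∈ E0`.
`0 < ℓ - 1 < ℓ + 1 < p`, so `m := ℓ ∓ 1` is prime to `p`: `u m ≡ 1 mod p`, `Q = u • (m • Q) ∈ E0` (`S13.Loc.inE0_nsmul`): contradiction.
Finally `S15.A.Loc.inZeroComponentAt_iff` translates `InE0` into the Prelude's `InZeroComponentAt`, and `S15.A.Loc.val_yc_eq_one` gives the units.
-/
import Fermat.Agent.S12.Loc.Cyclo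
import Fermat.Agent.S12.Loc.Branch
import Fermat.Agent.S12.Loc.Centre
import Fermat.Agent.S15.A.Loc
import Fermat.Agent.S54.Frobenius

set_option autoImplicit false

namespace Fermat.Agent.S12.Loc

open WeierstrassCurve WeierstrassCurve.Affine Fermat.Agent.S05 Fermat.Agent.S13.Loc
open Fermat.Agent.S31 (Qb GQ)
open Fermat.Agent.S58 (EQ Pts)

variable {P : FreyPackage}

/-- if a multiple `m • Q`, `p ∤ m`, lies in `E0` then so does `Q`. -/
theorem IsCof.inE0_of_nsmul {Q : Pts (Wf P)} (h : IsCof P Q) {A : ValuationSubring Qb} {e κ β : Qb}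
    (hc : Centre ((EQ (Wf P))⁄Qb) e κ β) (hκ : A.valuation κ < 1) (hβ : A.valuation β ≤ 1)
    {m : ℕ} (hm : ¬ P.p ∣ m) (h0 : InE0 A.valuation e (m • Q)) : InE0 A.valuation e Q := by
  have hcop : Nat.Coprime m P.p := ((Nat.Prime.coprime_iff_not_dvd P.pp).2 hm).symm
  obtain ⟨u, -, hu⟩ := Nat.exists_mul_mod_eq_one_of_coprime hcop P.pp.one_lt
  have h1 := inE0_nsmul A.valuation hc hκ hβ h0 u
  have h2 : u • (m • Q) = Q := by
    rw [smul_smul, mul_comm u m, ← Nat.div_add_mod (m * u) P.p, hu, add_smul, one_smul, mul_comm P.p,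
      mul_smul, h.nsmul_eq_zero, nsmul_zero, zero_add]
  rwa [h2] at h1

/-- (1c), `InE0` form, for the rational centre. -/
theorem IsCof.inE0 {Q : Pts (Wf P)} (h : IsCof P Q) {ℓ : ℕ} (hℓ : ℓ.Prime) (h1 : ℓ + 1 < P.p)
    (A : ValuationSubring Qb) (hA : A.LiesOverPrime ℓ) {e κ β : ℚ}
    (hc : Centre ((EQ (Wf P))⁄Qb) (algebraMap ℚ Qb e) (algebraMap ℚ Qb κ) (algebraMap ℚ Qb β))
    (he : A.valuation (algebraMap ℚ Qb e) ≤ 1) (hκ : A.valuation (algebraMap ℚ Qb κ) < 1)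
    (hβ : A.valuation (algebraMap ℚ Qb β) = 1) : InE0 A.valuation (algebraMap ℚ Qb e) Q := by
  by_contra hQ
  obtain ⟨hk1, hk2⟩ := kappa_lt_of_not_inE0 A.valuation hc hκ hβ.le P.hp_odd h.nsmul_eq_zero hQ
  obtain ⟨φ, hφ⟩ := Fermat.Agent.S54.exists_isFrobeniusAt ℓ hℓ A hA
  have hφD := hφ.mem_decompositionSubgroup
  have hℓp : ℓ ≠ P.p := by omega
  have hfrob : φ • Q = ℓ • Q := h.frob_smul hℓ hℓp A hA φ hφ
  have halg : Algebra.IsAlgebraic ℚ Qb := Fermat.Agent.S13.Ladder.isAlgClosure_Qbar.isAlgebraic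
  have hxc : xc (φ • Q) = φ (xc Q) := xc_map (EQ (Wf P)) φ Q
  have hval : A.valuation (xc (ℓ • Q) - algebraMap ℚ Qb e) =
      A.valuation (xc Q - algebraMap ℚ Qb e) := by
    have h3 : xc (ℓ • Q) - algebraMap ℚ Qb e = φ (xc Q - algebraMap ℚ Qb e) := by
      rw [← hfrob, hxc, map_sub, φ.commutes e]
    rw [h3]
    exact val_sigma_of_mem_decomposition A φ hφD _
  have hℓQ : ℓ • Q ≠ 0 := by
    rw [Ne, h.nsmul_eq_zero_iff]
    intro hd
    have := Nat.le_of_dvd hℓ.pos hd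
    omega
  obtain ⟨ha1, ha2, -, -, -⟩ := val_a_le_one (Wf P) A
  have h2 : (2 : Qb) ≠ 0 := two_ne_zero
  have hℓ2 := hℓ.two_le
  rcases branch_dichotomy A.valuation hc h2 ha1 ha2 he hβ h.ne_zero hℓQ hk1 hk2 hval with hd | hd
  · refine hQ (h.inE0_of_nsmul hc hκ hβ.le (m := ℓ - 1) ?_ ?_)
    · intro hd
      have := Nat.le_of_dvd (by omega) hd
      omega
    · have h3 : (ℓ - 1) • Q = ℓ • Q - Q := by
        rw [eq_sub_iff_add_eq, ← succ_nsmul]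
        congr 1
        omega
      rwa [h3]
  · refine hQ (h.inE0_of_nsmul hc hκ hβ.le (m := ℓ + 1) ?_ ?_)
    · intro hd
      have := Nat.le_of_dvd (by omega) hd
      omega
    · rwa [succ_nsmul]

/-- **(1c)** -/
theorem IsCof.inZero {Q : Pts (Wf P)} (h : IsCof P Q) {ℓ : ℕ} (hℓ : ℓ.Prime)
    (hbad : (ℓ : ℤ) ∣ P.a * P.b * P.c) (h1 : ℓ + 1 < P.p)
    (A : ValuationSubring Qb) (hA : A.LiesOverPrime ℓ) : (Wf P).InZeroComponentAt A Q := by
  obtain ⟨e, κ, β, hc, he, hκ, hβ⟩ := exists_centre_rat P hℓ hbad A hA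
  exact (Fermat.Agent.S15.A.Loc.inZeroComponentAt_iff A hc he hκ hβ Q).2
    (h.inE0 hℓ h1 A hA hc he hκ hβ)

end Fermat.Agent.S12.Loc
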