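/-
S12 / Loc / Export: summary of FREY-LOCAL.

`import Fermat.Agent.S12.Loc.Export`, namespace `Fermat.Agent.S12.Loc`:
 * `Wf P := P.freyCurveInt`, `freyCurve_eq`, `Wf_c₄`, `Wf_Δ`, `Wf_Δ_ne_zero`, `dvd_Δ_iff`, `not_dvd_c₄`  (Model)
 * `IsCof P Q`, `exists_isCof`  (Defs, Cof)
 * (1a) `IsCof.smul_eq`, `IsCof.frob_smul`  (Cyclo)
 * (1b) `IsCof.dvd_abc`  (Count)
 * (1c) `IsCof.inZero`  (Zero)
-/
import Fermat.Agent.S12.Loc.Zero
import Fermat.Agent.S12.Loc.Count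

set_option autoImplicit false

namespace Fermat.Agent.S12.Loc

open WeierstrassCurve WeierstrassCurve.Affine
open Fermat.Agent.S31 (Qb GQ)
open Fermat.Agent.S58 (EQ Pts)

/-- **FREY-LOCAL.**  A cofixed line of the Frey curve gives a point `Q` of order `p` on the integral model `W = Wf P`, generating a Galois-stable subgroup, such that every prime `ℓ` with `2ℓ < p`
is a prime of multiplicative reduction at which `Q` lies in the zero component. -/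
theorem main (P : FreyPackage)
    (h : WeierstrassCurve.Affine.Point.HasGaloisStableCofixedLine (K := AlgebraicClosure ℚ) ℚ
      P.freyCurve P.p) :
    ∃ Q : Pts (Wf P), addOrderOf Q = P.p ∧ (∀ σ : GQ, ∃ k : ℕ, σ • Q = k • Q) ∧
      ∀ ℓ : ℕ, ℓ.Prime → 2 * ℓ < P.p →
        (ℓ : ℤ) ∣ (Wf P).Δ ∧ ¬ (ℓ : ℤ) ∣ (Wf P).c₄ ∧
          ∀ A : ValuationSubring Qb, A.LiesOverPrime ℓ → (Wf P).InZeroComponentAt A Q := by
  obtain ⟨Q, hQ⟩ := exists_isCof P h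
  refine ⟨Q, hQ.order, hQ.stable, fun ℓ hℓ h2 => ?_⟩
  have hbad := hQ.dvd_abc hℓ h2
  refine ⟨(dvd_Δ_iff hℓ).2 hbad, not_dvd_c₄ hℓ hbad, fun A hA => ?_⟩
  have := hℓ.two_le
  exact hQ.inZero hℓ hbad (by omega) A hA

end Fermat.Agent.S12.Loc
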